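import Fermat.Agent.BrauerForms.Restriction

/-!
# Brauer's induction

If diagonal forms in many variables have zeros, systems of forms of bounded degree in many
variables vanish on large subspaces.
-/

set_option autoImplicit false

noncomputable section

open MvPolynomial

namespace Fermat.Agent.BrauerForms

variable (K : Type*) [Field K]

/-- Every diagonal form of degree `d` in enough variables has a nontrivial zero. -/
def DiagonalZeros (d : ℕ) : Prop :=
  ∃ h, ∀ n, h ≤ n → ∀ a : Fin n → K, ∃ x : Fin n → K, x ≠ 0 ∧ ∑ i, a i * x i ^ d = 0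

/-- Systems of `r` forms of degrees at most `D` in enough variables vanish on `m`-dimensional
subspaces. -/
def SubspaceZeros (D : ℕ) : Prop :=
  ∀ r m, ∃ N, ∀ n, N ≤ n → ∀ (f : Fin r → MvPolynomial (Fin n) K) (deg : Fin r → ℕ),
    (∀ i, (f i).IsHomogeneous (deg i) ∧ 1 ≤ deg i ∧ deg i ≤ D) →
      ∃ v : Fin m → Fin n → K, LinearIndependent K v ∧
        ∀ i (x : Fin m → K), eval (∑ j, x j • v j) (f i) = 0

variable {K}

theorem SubspaceZeros.of_fintype {D : ℕ} (h : SubspaceZeros K D) (ι : Type*) [Fintype ι] (m : ℕ) :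
    ∃ N, ∀ n, N ≤ n → ∀ (f : ι → MvPolynomial (Fin n) K) (deg : ι → ℕ),
      (∀ i, (f i).IsHomogeneous (deg i) ∧ 1 ≤ deg i ∧ deg i ≤ D) →
        ∃ v : Fin m → Fin n → K, LinearIndependent K v ∧
          ∀ i (x : Fin m → K), eval (∑ j, x j • v j) (f i) = 0 := by
  obtain ⟨N, hN⟩ := h (Fintype.card ι) m
  refine ⟨N, fun n hn f deg hf => ?_⟩
  set e := Fintype.equivFin ι
  obtain ⟨v, hv, hz⟩ := hN n hn (f ∘ e.symm) (deg ∘ e.symm) fun i => hf _
  exact ⟨v, hv, fun i x => by simpa using hz (e i) x⟩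

theorem eval_add_of_linear {n : ℕ} {a : MvPolynomial (Fin n) K} (ha : a.IsHomogeneous 1)
    (x y : Fin n → K) : eval (x + y) a = eval x a + eval y a := by
  have hm : a ∈ Submodule.span K (Set.range (X : Fin n → MvPolynomial (Fin n) K)) := by
    rw [← homogeneousSubmodule_one_eq_span_X]
    exact ha
  clear ha
  induction hm using Submodule.span_induction with
  | mem a ha => obtain ⟨j, rfl⟩ := ha; simp
  | zero => simp
  | add a b _ _ iha ihb => rw [map_add, map_add, map_add, iha, ihb]; ring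
  | smul c a _ iha => rw [smul_eval, smul_eval, smul_eval, iha]; ring

/-- Linear systems. -/
theorem subspaceZeros_one : SubspaceZeros K 1 := by
  intro r m
  refine ⟨m + r, fun n hn f deg hf => ?_⟩
  set L : (Fin n → K) →ₗ[K] Fin r → K :=
    { toFun := fun x i => eval x (f i)
      map_add' := fun x y => funext fun i => by
        obtain ⟨hh, h1, h2⟩ := hf i
        exact eval_add_of_linear ((show deg i = 1 by omega) ▸ hh) x y
      map_smul' := fun c x => funext fun i => by
        obtain ⟨hh, h1, h2⟩ := hf i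
        show eval (c • x) (f i) = c * eval x (f i)
        rw [eval_smul_form hh, show deg i = 1 by omega, pow_one] }
  have hker : m ≤ Module.finrank K (LinearMap.ker L) := by
    have h := LinearMap.finrank_range_add_finrank_ker L
    have h' := (LinearMap.range L).finrank_le
    rw [Module.finrank_fin_fun] at h h'
    omega
  obtain ⟨w, hw⟩ := exists_linearIndependent_of_le_finrank hker
  refine ⟨fun j => ((w j : LinearMap.ker L) : Fin n → K),
    hw.map' (LinearMap.ker L).subtype (Submodule.ker_subtype _), fun i x => ?_⟩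
  have : ∑ j, x j • ((w j : LinearMap.ker L) : Fin n → K) ∈ LinearMap.ker L :=
    sum_mem fun j _ => Submodule.smul_mem _ _ (w j).2
  exact congr_fun (LinearMap.mem_ker.1 this) i

/-- A subspace where the coordinates dual to `v` and the mixed forms vanish. -/
theorem exists_separated {D : ℕ} (hD : 1 ≤ D) (hS : SubspaceZeros K D) (j N₀ : ℕ) :
    ∃ N, ∀ n, N ≤ n → ∀ f : MvPolynomial (Fin n) K, f.IsHomogeneous (D + 1) →
      ∀ v : Fin j → Fin n → K, LinearIndependent K v →
        ∃ w : Fin N₀ → Fin n → K, LinearIndependent K w ∧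
          (∀ c : Fin N₀ → K, c ≠ 0 → ∀ x : Fin j → K, ∑ i, x i • v i ≠ ∑ i, c i • w i) ∧
          ∀ (c : Fin N₀ → K) (x : Fin j → K),
            eval ((∑ i, x i • v i) + ∑ i, c i • w i) f =
              eval (∑ i, x i • v i) f + eval (∑ i, c i • w i) f := by
  obtain ⟨N, hN⟩ := hS.of_fintype ((Fin j → Fin (D + 1)) ⊕ Fin j) N₀
  refine ⟨N, fun n hn f hf v hv => ?_⟩
  obtain ⟨g, deg, hg, hmixed⟩ := exists_mixed_forms v hf (by omega)
  -- coordinates dual to `v`
  set V : (Fin j → K) →ₗ[K] Fin n → K := Fintype.linearCombination K v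
  obtain ⟨P, hP⟩ := V.exists_leftInverse_of_injective
    (LinearMap.ker_eq_bot.2 (linearIndependent_iff_injective_fintypeLinearCombination.1 hv))
  set ℓ : Fin j → MvPolynomial (Fin n) K := fun i =>
    ∑ k, C (P (Pi.single k 1) i) * X k
  have hℓ : ∀ i z, eval z (ℓ i) = P z i := fun i z => by
    conv_rhs => rw [LinearMap.pi_apply_eq_sum_univ P z]
    simp only [ℓ, map_sum, map_mul, eval_C, eval_X, Finset.sum_apply, Pi.smul_apply, smul_eq_mul]
    refine Finset.sum_congr rfl fun k _ => ?_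
    rw [mul_comm]
    congr 1
    refine congrFun (congrArg P (funext fun l => ?_)) i
    simp [Pi.single_apply, eq_comm]
  obtain ⟨w, hw, hz⟩ := hN n hn (Sum.elim g ℓ) (Sum.elim deg fun _ => 1) fun s => by
    rcases s with s | i
    · exact ⟨(hg s).1, (hg s).2.1, (hg s).2.2.trans (by omega)⟩
    · exact ⟨IsHomogeneous.sum _ _ _ fun k _ => isHomogeneous_C_mul_X _ k, le_rfl, hD⟩
  refine ⟨w, hw, fun c hc x hx => hc ?_, fun c x => hmixed _ (fun s => hz (Sum.inl s) c) x⟩
  have hx0 : x = 0 := funext fun i => by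
    have h1 := hz (Sum.inr i) c
    rw [Sum.elim_inr, hℓ, ← hx] at h1
    have h2 : P (∑ i, x i • v i) = x := by
      have := LinearMap.congr_fun hP x
      simpa [V, Fintype.linearCombination_apply] using this
    rwa [h2] at h1
  rw [hx0] at hx
  simp only [Pi.zero_apply, zero_smul, Finset.sum_const_zero] at hx
  exact funext fun i => Fintype.linearIndependent_iff.1 hw c hx.symm i

/-- A zero of one form of degree `D + 1`, through a diagonal form. -/
theorem exists_zero_succ {D : ℕ} (hD : 1 ≤ D) (hS : SubspaceZeros K D)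
    (hdiag : DiagonalZeros K (D + 1)) : ∃ N, ∀ n, N ≤ n → ∀ f : MvPolynomial (Fin n) K,
      f.IsHomogeneous (D + 1) → ∃ x : Fin n → K, x ≠ 0 ∧ eval x f = 0 := by
  -- vectors that diagonalise
  suffices hk : ∀ k, ∃ N, ∀ n, N ≤ n → ∀ f : MvPolynomial (Fin n) K, f.IsHomogeneous (D + 1) →
      ∃ v : Fin k → Fin n → K, LinearIndependent K v ∧
        ∀ x : Fin k → K, eval (∑ i, x i • v i) f = ∑ i, eval (v i) f * x i ^ (D + 1) by
    obtain ⟨h, hh⟩ := hdiag
    obtain ⟨N, hN⟩ := hk h
    refine ⟨N, fun n hn f hf => ?_⟩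
    obtain ⟨v, hv, hdiagv⟩ := hN n hn f hf
    obtain ⟨x, hx, hx0⟩ := hh h le_rfl fun i => eval (v i) f
    exact ⟨∑ i, x i • v i,
      fun h0 => hx (funext (Fintype.linearIndependent_iff.1 hv x h0)), (hdiagv x).trans hx0⟩
  intro k
  induction k with
  | zero =>
    refine ⟨0, fun n _ f hf => ⟨![], linearIndependent_empty_type, fun x => ?_⟩⟩
    rw [Fin.sum_univ_zero, Fin.sum_univ_zero, eval_zero_form hf (Nat.succ_ne_zero D)]
  | succ k ih =>
    obtain ⟨N₁, hN₁⟩ := ih
    obtain ⟨N₂, hN₂⟩ := exists_separated hD hS k 1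
    refine ⟨max N₁ N₂, fun n hn f hf => ?_⟩
    obtain ⟨v, hv, hdiagv⟩ := hN₁ n (le_trans (le_max_left _ _) hn) f hf
    obtain ⟨w, hw, hsep, hadd⟩ := hN₂ n (le_trans (le_max_right _ _) hn) f hf v hv
    refine ⟨Fin.snoc v (w 0), linearIndependent_finSnoc.2 ⟨hv, fun hmem => ?_⟩, fun x => ?_⟩
    · obtain ⟨c, hc⟩ := (Submodule.mem_span_range_iff_exists_fun K).1 hmem
      exact hsep 1 one_ne_zero c (by simpa using hc)
    · have h1 := hadd (fun _ => x (Fin.last k)) (x ∘ Fin.castSucc)
      simp only [Finset.univ_unique, Fin.default_eq_zero, Finset.sum_singleton,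
        Function.comp_apply] at h1
      rw [Fin.sum_univ_castSucc, Fin.sum_univ_castSucc]
      simp only [Fin.snoc_castSucc, Fin.snoc_last]
      have h2 := hdiagv (x ∘ Fin.castSucc)
      simp only [Function.comp_apply] at h2
      rw [h1, eval_smul_form hf, mul_comm, h2]

/-- One form of degree `D + 1` vanishes on subspaces of every dimension. -/
theorem exists_subspace_succ {D : ℕ} (hD : 1 ≤ D) (hS : SubspaceZeros K D)
    (hdiag : DiagonalZeros K (D + 1)) (m : ℕ) : ∃ N, ∀ n, N ≤ n →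
      ∀ f : MvPolynomial (Fin n) K, f.IsHomogeneous (D + 1) →
        ∃ v : Fin m → Fin n → K, LinearIndependent K v ∧
          ∀ x : Fin m → K, eval (∑ j, x j • v j) f = 0 := by
  obtain ⟨N₀, hN₀⟩ := exists_zero_succ hD hS hdiag
  induction m with
  | zero =>
    refine ⟨0, fun n _ f hf => ⟨![], linearIndependent_empty_type, fun x => ?_⟩⟩
    rw [Fin.sum_univ_zero, eval_zero_form hf (Nat.succ_ne_zero D)]
  | succ m ih =>
    obtain ⟨N₁, hN₁⟩ := ih
    obtain ⟨N₂, hN₂⟩ := exists_separated hD hS m N₀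
    refine ⟨max N₁ N₂, fun n hn f hf => ?_⟩
    obtain ⟨v, hv, hzero⟩ := hN₁ n (le_trans (le_max_left _ _) hn) f hf
    obtain ⟨w, hw, hsep, hadd⟩ := hN₂ n (le_trans (le_max_right _ _) hn) f hf v hv
    obtain ⟨c, hc, hcz⟩ := hN₀ N₀ le_rfl (restrictSpan w f) (isHomogeneous_restrictSpan w hf)
    rw [eval_restrictSpan] at hcz
    refine ⟨Fin.snoc v (∑ i, c i • w i), linearIndependent_finSnoc.2 ⟨hv, fun hmem => ?_⟩,
      fun x => ?_⟩
    · obtain ⟨y, hy⟩ := (Submodule.mem_span_range_iff_exists_fun K).1 hmem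
      exact hsep c hc y hy
    · rw [Fin.sum_univ_castSucc]
      simp only [Fin.snoc_castSucc, Fin.snoc_last]
      have h1 := hadd (x (Fin.last m) • c) (x ∘ Fin.castSucc)
      have e : ∑ i, (x (Fin.last m) • c) i • w i = x (Fin.last m) • ∑ i, c i • w i := by
        rw [Finset.smul_sum]
        simp [smul_smul]
      rw [e] at h1
      refine h1.trans ?_
      rw [hzero, eval_smul_form hf, hcz, mul_zero, add_zero]

/-- **Brauer's step.** -/
theorem SubspaceZeros.succ {D : ℕ} (hD : 1 ≤ D) (hS : SubspaceZeros K D)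
    (hdiag : DiagonalZeros K (D + 1)) : SubspaceZeros K (D + 1) := by
  intro r
  induction r with
  | zero =>
    intro m
    refine ⟨m, fun n hn f deg _ => ?_⟩
    exact ⟨fun j => Pi.single (Fin.castLE hn j) 1,
      (Pi.linearIndependent_single_one (Fin n) K).comp _ (Fin.castLE_injective hn),
      fun i => i.elim0⟩
  | succ r ih =>
    intro m
    obtain ⟨N₁, hN₁⟩ := ih m
    obtain ⟨N₂, hN₂⟩ := exists_subspace_succ hD hS hdiag N₁
    obtain ⟨N₃, hN₃⟩ := hS 1 N₁
    refine ⟨max N₂ N₃, fun n hn f deg hf => ?_⟩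
    obtain ⟨hh, h1, h2⟩ := hf (Fin.last r)
    obtain ⟨u, hu, huz⟩ : ∃ u : Fin N₁ → Fin n → K, LinearIndependent K u ∧
        ∀ x : Fin N₁ → K, eval (∑ j, x j • u j) (f (Fin.last r)) = 0 := by
      rcases eq_or_lt_of_le h2 with he | hlt
      · exact hN₂ n (le_trans (le_max_left _ _) hn) _ (he ▸ hh)
      · obtain ⟨u, hu, huz⟩ := hN₃ n (le_trans (le_max_right _ _) hn) ![f (Fin.last r)]
          ![deg (Fin.last r)] fun i => by
            rw [Fin.fin_one_eq_zero i]; exact ⟨hh, h1, Nat.lt_succ_iff.1 hlt⟩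
        exact ⟨u, hu, fun x => huz 0 x⟩
    obtain ⟨v, hv, hvz⟩ := hN₁ N₁ le_rfl (fun i => restrictSpan u (f i.castSucc))
      (fun i => deg i.castSucc) fun i => ⟨isHomogeneous_restrictSpan u (hf _).1, (hf _).2⟩
    set U : (Fin N₁ → K) →ₗ[K] Fin n → K := Fintype.linearCombination K u
    refine ⟨fun j => U (v j), hv.map' U
      (LinearMap.ker_eq_bot.2 (linearIndependent_iff_injective_fintypeLinearCombination.1 hu)),
      fun i x => ?_⟩
    have e : ∑ j, x j • U (v j) = ∑ k, (∑ j, x j • v j) k • u k := by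
      rw [← Fintype.linearCombination_apply K u]
      simp only [U, map_sum, map_smul]
    rw [e]
    refine Fin.lastCases (huz _) (fun i => ?_) i
    rw [← eval_restrictSpan]
    exact hvz i x

/-- **Brauer's theorem.** -/
theorem subspaceZeros_of_diagonal (hdiag : ∀ d, 2 ≤ d → DiagonalZeros K d) :
    ∀ D, SubspaceZeros K D
  | 0 => fun r m => by
    obtain ⟨N, hN⟩ := subspaceZeros_one (K := K) r m
    exact ⟨N, fun n hn f deg hf => hN n hn f deg fun i =>
      ⟨(hf i).1, (hf i).2.1, (hf i).2.2.trans zero_le_one⟩⟩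
  | 1 => subspaceZeros_one
  | D + 2 => (subspaceZeros_of_diagonal hdiag (D + 1)).succ (by omega) (hdiag _ (by omega))

end Fermat.Agent.BrauerForms
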