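import Fermat.Agent.BrauerForms.Induction

/-!
# The p-adic case

Finitely many classes modulo `d`-th powers, with `-1` a sum of `d`-th powers, give zeros of diagonal
forms; `ℚ_[p]` has both.
-/

set_option autoImplicit false

noncomputable section

namespace Fermat.Agent.BrauerForms

/-- **Criterion** for diagonal forms. -/
theorem diagonalZeros_of_classes {K : Type*} [Field K] {d : ℕ} (hd : d ≠ 0) {C : Type*}
    [Fintype C] (κ : K → C)
    (hκ : ∀ a b : K, a ≠ 0 → b ≠ 0 → κ a = κ b → ∃ c, b = a * c ^ d)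
    (hneg : ∃ (s : ℕ) (y : Fin s → K), ∑ l, y l ^ d = -1) : DiagonalZeros K d := by
  classical
  obtain ⟨s, y, hy⟩ := hneg
  refine ⟨Fintype.card C * s + 1, fun n hn a => ?_⟩
  by_cases h0 : ∃ i, a i = 0
  · obtain ⟨i, hi⟩ := h0
    refine ⟨Pi.single i 1, fun h => one_ne_zero (α := K) (by simpa using congrFun h i), ?_⟩
    refine Finset.sum_eq_zero fun j _ => ?_
    rcases eq_or_ne j i with rfl | hj
    · rw [hi, zero_mul]
    · rw [Pi.single_eq_of_ne hj, zero_pow hd, mul_zero]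
  push Not at h0
  obtain ⟨cl, hcl⟩ := Fintype.exists_lt_card_fiber_of_mul_lt_card (f := κ ∘ a) (n := s)
    (by rw [Fintype.card_fin]; omega)
  obtain ⟨i₀, hi₀⟩ := Finset.card_pos.1 ((Nat.zero_le s).trans_lt hcl)
  obtain ⟨t, htsub, htcard⟩ := Finset.exists_subset_card_eq (n := s)
    (s := (Finset.univ.filter fun i => (κ ∘ a) i = cl).erase i₀) (by
      rw [Finset.card_erase_of_mem hi₀]; omega)
  set e := (t.equivFin.trans (finCongr htcard)).symm
  have hmem : ∀ l, κ (a i₀) = κ (a (e l)) ∧ (e l : Fin n) ≠ i₀ := fun l => by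
    have := htsub (e l).2
    simp only [Finset.mem_erase, Finset.mem_filter, Function.comp_apply] at this hi₀
    exact ⟨hi₀.2.trans this.2.2.symm, this.1⟩
  choose c hc using fun l => hκ _ _ (h0 i₀) (h0 _) (hmem l).1
  have hc0 : ∀ l, c l ≠ 0 := fun l h => h0 (e l) (by rw [hc, h, zero_pow hd, mul_zero])
  set x : Fin n → K := fun i =>
    if i = i₀ then 1 else if h : i ∈ t then y (e.symm ⟨i, h⟩) / c (e.symm ⟨i, h⟩) else 0 with hxdef
  refine ⟨x, fun h => one_ne_zero (α := K) (by simpa [hxdef] using congrFun h i₀), ?_⟩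
  have hnot : i₀ ∉ t := fun h => (Finset.mem_erase.1 (htsub h)).1 rfl
  rw [← Finset.sum_subset (Finset.subset_univ (insert i₀ t)) fun i _ hi => by
    simp only [Finset.mem_insert, not_or] at hi
    rw [hxdef]
    simp only [if_neg hi.1, dif_neg hi.2, zero_pow hd, mul_zero]]
  rw [Finset.sum_insert hnot, ← Finset.sum_coe_sort t, ← e.sum_comp]
  have hterm : ∀ l, a (e l) * x (e l) ^ d = a i₀ * y l ^ d := fun l => by
    have hx : x (e l) = y l / c l := by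
      rw [hxdef]
      simp only [if_neg (hmem l).2, dif_pos (e l).2, Subtype.coe_eta, Equiv.symm_apply_apply]
    rw [hx, hc l, div_pow, mul_assoc, mul_div_cancel₀ _ (pow_ne_zero d (hc0 l))]
  rw [Finset.sum_congr rfl fun l _ => hterm l, ← Finset.mul_sum, hy]
  simp [hxdef]

variable {p : ℕ} [Fact p.Prime]

/-- Units close to `1` are `d`-th powers. -/
theorem exists_pow_eq_of_close {d : ℕ} {w : ℤ_[p]} (h : ‖w - 1‖ < ‖(d : ℤ_[p])‖ ^ 2) :
    ∃ z : ℤ_[p], z ^ d = w := by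
  obtain ⟨z, hz, -⟩ := hensels_lemma (R := ℤ_[p]) (F := Polynomial.X ^ d - Polynomial.C w)
    (a := (1 : ℤ_[p])) (by simpa [Polynomial.derivative_X_pow, norm_sub_rev] using h)
  exact ⟨z, by simpa [sub_eq_zero] using hz⟩

/-- The unit part. -/
def unitPart (a : ℚ_[p]) : ℚ_[p] :=
  a * (p : ℚ_[p]) ^ (-a.valuation)

theorem norm_unitPart {a : ℚ_[p]} (ha : a ≠ 0) : ‖unitPart a‖ = 1 := by
  have hp : (0 : ℝ) < p := Nat.cast_pos.2 (Fact.out : p.Prime).pos
  rw [unitPart, norm_mul, norm_zpow, Padic.norm_p, Padic.norm_eq_zpow_neg_valuation ha, inv_zpow',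
    neg_neg, ← zpow_add₀ hp.ne', neg_add_cancel, zpow_zero]

theorem diagonalZeros_padic (p : ℕ) [Fact p.Prime] {d : ℕ} (hd : d ≠ 0) :
    DiagonalZeros ℚ_[p] d := by
  have hp := (Fact.out : p.Prime)
  have : NeZero d := ⟨hd⟩
  have hd' : 0 < ‖(d : ℤ_[p])‖ ^ 2 := pow_pos (norm_pos_iff.2 (Nat.cast_ne_zero.2 hd)) 2
  obtain ⟨k, hk⟩ := PadicInt.exists_pow_neg_lt p hd'
  have hclose : ∀ {x : ℤ_[p]}, x ∈ (Ideal.span {(p : ℤ_[p]) ^ k} : Ideal ℤ_[p]) →
      ‖x‖ < ‖(d : ℤ_[p])‖ ^ 2 := fun hx =>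
    ((PadicInt.norm_le_pow_iff_mem_span_pow _ _).2 hx).trans_lt hk
  set κ : ℚ_[p] → ZMod d × ZMod (p ^ k) := fun a =>
    ((a.valuation : ZMod d),
      if h : ‖unitPart a‖ ≤ 1 then PadicInt.toZModPow k ⟨unitPart a, h⟩ else 0) with hκdef
  have : NeZero (p ^ k) := ⟨pow_ne_zero k hp.ne_zero⟩
  refine diagonalZeros_of_classes hd κ (fun a b ha hb hab => ?_) ?_
  · rw [hκdef, Prod.mk.injEq] at hab
    obtain ⟨hv, hu⟩ := hab
    rw [dif_pos (norm_unitPart ha).le, dif_pos (norm_unitPart hb).le] at hu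
    set ua : ℤ_[p] := ⟨unitPart a, (norm_unitPart ha).le⟩
    set ub : ℤ_[p] := ⟨unitPart b, (norm_unitPart hb).le⟩
    obtain ⟨q, hq⟩ := (ZMod.intCast_eq_intCast_iff_dvd_sub _ _ d).1 hv
    obtain ⟨u, hu'⟩ := (PadicInt.isUnit_iff (z := ua)).2 (norm_unitPart ha)
    have hmem : ub - ua ∈ (Ideal.span {(p : ℤ_[p]) ^ k} : Ideal ℤ_[p]) := by
      rw [← PadicInt.ker_toZModPow, RingHom.mem_ker, map_sub, hu, sub_self]
    obtain ⟨z, hz⟩ := exists_pow_eq_of_close (d := d) (w := ((u⁻¹ : ℤ_[p]ˣ) : ℤ_[p]) * ub)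
      (hclose (by
        rw [show ((u⁻¹ : ℤ_[p]ˣ) : ℤ_[p]) * ub - 1 = ((u⁻¹ : ℤ_[p]ˣ) : ℤ_[p]) * (ub - ua) by
          rw [mul_sub, ← hu', Units.inv_mul]]
        exact Ideal.mul_mem_left _ _ hmem))
    have hub : ub = ua * z ^ d := by rw [hz, ← hu', Units.mul_inv_cancel_left]
    refine ⟨(p : ℚ_[p]) ^ q * (z : ℚ_[p]), ?_⟩
    have h1 := congrArg (fun t : ℤ_[p] => (t : ℚ_[p])) hub
    simp only [PadicInt.coe_mul, PadicInt.coe_pow] at h1
    change unitPart b = unitPart a * (z : ℚ_[p]) ^ d at h1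
    have hp0 : (p : ℚ_[p]) ≠ 0 := Nat.cast_ne_zero.2 hp.ne_zero
    have hsplit : ∀ t : ℚ_[p], t = unitPart t * (p : ℚ_[p]) ^ t.valuation := fun t => by
      rw [unitPart, mul_assoc, ← zpow_add₀ hp0, neg_add_cancel, zpow_zero, mul_one]
    conv_lhs => rw [hsplit b, h1, show b.valuation = a.valuation + q * (d : ℤ) by linarith,
      zpow_add₀ hp0, zpow_mul, zpow_natCast]
    conv_rhs => rw [hsplit a, mul_pow]
    ring
  · obtain ⟨u, hu⟩ : IsUnit (1 - (p : ℤ_[p]) ^ (k + 1)) := by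
      have h : (p : ℤ_[p]) ^ (k + 1) ∈ IsLocalRing.maximalIdeal ℤ_[p] := by
        rw [PadicInt.maximalIdeal_eq_span_p, pow_succ]
        exact Ideal.mul_mem_left _ _ (Ideal.subset_span rfl)
      exact IsLocalRing.isUnit_one_sub_self_of_mem_nonunits _ h
    obtain ⟨z, hz⟩ := exists_pow_eq_of_close (d := d) (w := ((u⁻¹ : ℤ_[p]ˣ) : ℤ_[p]))
      (hclose (Ideal.mem_span_singleton'.2 ⟨((u⁻¹ : ℤ_[p]ˣ) : ℤ_[p]) * p, by
        have := u.inv_mul
        rw [hu] at this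
        linear_combination (-1 : ℤ_[p]) * this⟩))
    refine ⟨p ^ (k + 1) - 1, fun _ => (z : ℚ_[p]), ?_⟩
    have h1 : ((p ^ (k + 1) - 1 : ℕ) : ℤ_[p]) * z ^ d = -1 := by
      rw [hz, Nat.cast_sub (Nat.one_le_pow _ _ hp.pos), Nat.cast_pow, Nat.cast_one,
        ← neg_sub (1 : ℤ_[p]), ← hu, neg_mul, Units.mul_inv]
    rw [Fin.sum_const, nsmul_eq_mul]
    simpa using congrArg (fun t : ℤ_[p] => (t : ℚ_[p])) h1

/-- **Brauer, p-adically.** -/
theorem subspaceZeros_padic (p : ℕ) [Fact p.Prime] (D : ℕ) : SubspaceZeros ℚ_[p] D :=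
  subspaceZeros_of_diagonal (fun _ hd => diagonalZeros_padic p (by omega)) D

end Fermat.Agent.BrauerForms
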