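import Mathlib

/-!
# Forms on a span

Restricting a form to the span of given vectors, and the forms that govern the mixed terms of
`f (u + e)` for `u` in that span.
-/

set_option autoImplicit false

noncomputable section

open MvPolynomial

namespace Fermat.Agent.BrauerForms

variable {K : Type*} [Field K] {n m d : ℕ}

/-- `f (∑ x i • v i)` as a polynomial in `x`. -/
def restrictSpan (v : Fin m → Fin n → K) (f : MvPolynomial (Fin n) K) :
    MvPolynomial (Fin m) K :=
  aeval (fun j => ∑ i, C (v i j) * X i) f

theorem eval_restrictSpan (v : Fin m → Fin n → K) (f : MvPolynomial (Fin n) K) (x : Fin m → K) :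
    eval x (restrictSpan v f) = eval (∑ i, x i • v i) f :=
  DFunLike.congr_fun (ringHom_ext
    (f := (eval x).comp (aeval fun j => ∑ i, C (v i j) * X i).toRingHom)
    (g := eval (∑ i, x i • v i)) (fun c => by simp)
    fun j => by simp [Finset.sum_apply, mul_comm]) f

theorem isHomogeneous_restrictSpan (v : Fin m → Fin n → K) {f : MvPolynomial (Fin n) K}
    (hf : f.IsHomogeneous d) : (restrictSpan v f).IsHomogeneous d :=
  one_mul d ▸ hf.aeval _ fun _ => IsHomogeneous.sum _ _ _ fun i _ => isHomogeneous_C_mul_X _ i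

theorem eval_smul_form {f : MvPolynomial (Fin n) K} (hf : f.IsHomogeneous d) (t : K)
    (x : Fin n → K) : eval (t • x) f = t ^ d * eval x f := by
  rw [eval_eq, eval_eq, Finset.mul_sum]
  refine Finset.sum_congr rfl fun s hs => ?_
  simp only [Pi.smul_apply, smul_eq_mul, mul_pow, Finset.prod_mul_distrib,
    Finset.prod_pow_eq_pow_sum]
  rw [← hf.degree_eq_sum_deg_support hs]
  ring

theorem eval_zero_form {f : MvPolynomial (Fin n) K} (hf : f.IsHomogeneous d) (hd : d ≠ 0) :
    eval (0 : Fin n → K) f = 0 := by
  have := eval_smul_form hf 0 0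
  rwa [zero_smul, zero_pow hd, zero_mul] at this

theorem coeff_sumAlgEquiv {α β : Type*} (P : MvPolynomial (α ⊕ β) K) (s : α →₀ ℕ) (u : β →₀ ℕ) :
    coeff u (coeff s (sumAlgEquiv K α β P)) = coeff (s.sumElim u) P := by
  classical
  induction P using MvPolynomial.induction_on' with
  | add p q hp hq => simp [hp, hq]
  | monomial w c =>
    simp [sumAlgEquiv, monomial, coeff, AddMonoidAlgebra.curryAlgEquiv]
    by_cases h : s.sumElim u = w
    · subst h
      rw [show Finsupp.comapDomain Sum.inl (s.sumElim u) Sum.inl_injective.injOn = s by ext a; simp,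
        Finsupp.single_eq_same, AddMonoidAlgebra.coeff_single,
        show Finsupp.comapDomain Sum.inr (s.sumElim u) Sum.inr_injective.injOn = u by ext a; simp,
        Finsupp.single_eq_same, Finsupp.single_eq_same]
    · rw [Finsupp.single_eq_of_ne h]
      by_cases hs : Finsupp.comapDomain Sum.inl w Sum.inl_injective.injOn = s
      · rw [hs, Finsupp.single_eq_same, AddMonoidAlgebra.coeff_single, Finsupp.single_eq_of_ne]
        rintro rfl
        exact h (by ext (a | a) <;> simp [← hs])
      · rw [Finsupp.single_eq_of_ne (Ne.symm hs), AddMonoidAlgebra.coeff_zero, Finsupp.zero_apply]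

/-- `f (∑ x i • v i + e)` in the variables `x` with coefficients forms in `e`. -/
def mixedPoly (v : Fin m → Fin n → K) (f : MvPolynomial (Fin n) K) :
    MvPolynomial (Fin m) (MvPolynomial (Fin n) K) :=
  sumAlgEquiv K (Fin m) (Fin n)
    (aeval (fun j => (∑ i, C (v i j) * X (Sum.inl i)) + X (Sum.inr j)) f)

theorem eval_mixedPoly (v : Fin m → Fin n → K) (f : MvPolynomial (Fin n) K) (x : Fin m → K)
    (e : Fin n → K) : eval x (MvPolynomial.map (eval e) (mixedPoly v f)) =
      eval ((∑ i, x i • v i) + e) f :=
  DFunLike.congr_fun (ringHom_ext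
    (f := (eval x).comp ((MvPolynomial.map (eval e)).comp
      ((sumAlgEquiv K (Fin m) (Fin n)).toAlgHom.toRingHom.comp
        (aeval fun j => (∑ i, C (v i j) * X (Sum.inl i)) + X (Sum.inr j)).toRingHom)))
    (g := eval ((∑ i, x i • v i) + e)) (fun c => by simp)
    fun j => by simp [map_sum, Finset.sum_apply, mul_comm]) f

/-- The coefficient of `x ^ s` has degree `d - |s|`. -/
theorem degree_mixedPoly (v : Fin m → Fin n → K) {f : MvPolynomial (Fin n) K}
    (hf : f.IsHomogeneous d) {s : Fin m →₀ ℕ} {u : Fin n →₀ ℕ}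
    (h : coeff u (coeff s (mixedPoly v f)) ≠ 0) : s.degree + u.degree = d := by
  rw [mixedPoly, coeff_sumAlgEquiv] at h
  have hh : (aeval (fun j => (∑ i, C (v i j) * X (Sum.inl i)) + X (Sum.inr j) :
      Fin n → MvPolynomial (Fin m ⊕ Fin n) K) f).IsHomogeneous (1 * d) :=
    hf.aeval _ fun _ =>
      (IsHomogeneous.sum _ _ _ fun i _ => isHomogeneous_C_mul_X _ _).add (isHomogeneous_X _ _)
  have := hh h
  rw [one_mul] at this
  change Finsupp.weight (fun _ => 1) _ = d at this
  rw [← this, ← Finsupp.degree_eq_weight_one, Finsupp.degree_eq_sum, Finsupp.degree_eq_sum,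
    Finsupp.degree_eq_sum, Fintype.sum_sum_type]
  simp

/-- **The mixed terms**: forms of degree `1, …, d - 1` in `e` whose vanishing makes `f` additive
between the span and `e`. -/
theorem exists_mixed_forms (v : Fin m → Fin n → K) {f : MvPolynomial (Fin n) K}
    (hf : f.IsHomogeneous d) (hd : 2 ≤ d) :
    ∃ (g : (Fin m → Fin d) → MvPolynomial (Fin n) K) (deg : (Fin m → Fin d) → ℕ),
      (∀ s, (g s).IsHomogeneous (deg s) ∧ 1 ≤ deg s ∧ deg s ≤ d - 1) ∧
      ∀ e, (∀ s, eval e (g s) = 0) → ∀ x : Fin m → K,
        eval ((∑ i, x i • v i) + e) f = eval (∑ i, x i • v i) f + eval e f := by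
  classical
  set Q := mixedPoly v f
  set toS : (Fin m → Fin d) → (Fin m →₀ ℕ) := fun s =>
    Finsupp.equivFunOnFinite.symm fun i => (s i : ℕ)
  refine ⟨fun s => if 1 ≤ (toS s).degree ∧ (toS s).degree ≤ d - 1 then coeff (toS s) Q else 0,
    fun s => if 1 ≤ (toS s).degree ∧ (toS s).degree ≤ d - 1 then d - (toS s).degree else 1,
    fun s => ?_, fun e he x => ?_⟩
  · dsimp only
    split_ifs with h
    · refine ⟨fun u hu => ?_, by omega, by omega⟩
      show Finsupp.weight (fun _ => 1) u = _
      rw [← Finsupp.degree_eq_weight_one]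
      have := degree_mixedPoly v hf hu
      omega
    · exact ⟨isHomogeneous_zero _ _ _, le_rfl, by omega⟩
  -- the surviving coefficients
  set u := ∑ i, x i • v i
  set Qe := MvPolynomial.map (eval e) Q
  set Q0 := MvPolynomial.map (eval (0 : Fin n → K)) Q
  have key : Qe = C (eval e f) + Q0 := by
    refine MvPolynomial.ext _ _ fun s => ?_
    rw [coeff_add, coeff_C, coeff_map, coeff_map]
    by_cases hs0 : (0 : Fin m →₀ ℕ) = s
    · subst hs0
      have h0 : ∀ a : Fin n → K, eval a (coeff 0 Q) = eval a f := fun a => by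
        have h := eval_mixedPoly v f 0 a
        simp only [Pi.zero_apply, zero_smul, Finset.sum_const_zero, zero_add] at h
        rwa [eval_zero, constantCoeff_eq, coeff_map] at h
      rw [if_pos rfl, h0, h0, eval_zero_form hf (by omega), add_zero]
    rw [if_neg hs0, zero_add]
    have hs1 : 1 ≤ s.degree := by
      rw [Nat.one_le_iff_ne_zero]
      exact fun h => hs0 ((Finsupp.degree_eq_zero_iff s).1 h).symm
    rcases lt_or_ge s.degree d with hlt | hge
    · have hvals : ∀ i, s i < d := fun i => (Finsupp.le_degree i s).trans_lt hlt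
      have h2 := he fun i => ⟨s i, hvals i⟩
      dsimp only at h2
      rw [show toS (fun i => (⟨s i, hvals i⟩ : Fin d)) = s from Finsupp.ext fun i => rfl,
        if_pos ⟨hs1, by omega⟩] at h2
      rw [h2, eval_eq]
      refine (Finset.sum_eq_zero fun w hw => ?_).symm
      have hdeg := degree_mixedPoly v hf (mem_support_iff.1 hw)
      obtain ⟨j, hj⟩ : ∃ j, w j ≠ 0 := by
        by_contra! hz
        rw [show w = 0 from Finsupp.ext hz, map_zero] at hdeg
        omega
      exact mul_eq_zero_of_right _ (Finset.prod_eq_zero (Finsupp.mem_support_iff.2 hj)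
        (zero_pow hj))
    · -- constant in `e`
      have hC : coeff s Q = C (coeff 0 (coeff s Q)) := MvPolynomial.ext _ _ fun w => by
        rw [coeff_C]
        split_ifs with hw
        · rw [hw]
        · by_contra hne
          have := degree_mixedPoly v hf hne
          exact hw ((Finsupp.degree_eq_zero_iff w).1 (by omega)).symm
      rw [hC, eval_C, eval_C]
  have h1 := eval_mixedPoly v f x e
  have h2 := eval_mixedPoly v f x 0
  rw [add_zero] at h2
  rw [← h1, show MvPolynomial.map (eval e) (mixedPoly v f) = C (eval e f) + Q0 from key, map_add,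
    eval_C, h2, add_comm]

end Fermat.Agent.BrauerForms
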